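import Fermat.Agent.Semistable.Toric.Relation
import Fermat.Agent.Semistable.Unipotent.Main
import Fermat.Agent.RT.Mazur.Orders
import Fermat.Agent.RT.LowerQ.Incl
import Fermat.Agent.RT.LowerQ.Classes
import Fermat.Agent.Mazur.Eisenstein.RedKernel

/-!
# The square of Frobenius on balanced classes killed by both degeneracy maps

At a level `M'` without elliptic points above `M` the two reductions give classes `a₀ = -Φ a₁`,
`a₁ = -Φ a₀`, so they lie in the finite group fixed by `Φ²`. A power of the Kummer function then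
has constant reductions up to `m`-th powers, and Frobenius squared is `q²` on its class. Norms
bring this back to level `q M` with a bounded exponent.
-/

set_option autoImplicit false
set_option synthInstance.maxHeartbeats 400000
set_option maxHeartbeats 1000000
set_option linter.unusedSectionVars false

noncomputable section

namespace Fermat.Agent.Semistable.Toric

open AlgebraicCurve ModularCurve
open Fermat.Agent.JacTorsion (divGrp toTorsion divQuot)
open Fermat.Agent.Semistable Fermat.Agent.RT.Mazur Fermat.Agent.RT.LowerQ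
open EichlerShimura (coeffAut coe_coeffAut_smul frobRing)
open Arith (QBar GQ)

variable {q : ℕ} [hq : Fact q.Prime] {M : ℕ} [NeZero M] {hqM : ¬ q ∣ M}

/-- A level above `M`, prime to `q`, without elliptic points. -/
theorem exists_level (hqM : ¬ q ∣ M) :
    ∃ M' : ℕ, 0 < M' ∧ M ∣ M' ∧ ¬ q ∣ M' ∧ EllFree M' := by
  have hMpos : 0 < M := Nat.pos_of_ne_zero (NeZero.ne M)
  by_cases h2 : q = 2
  · have : NeZero (9 * M) := ⟨by omega⟩
    refine ⟨9 * M, by omega, dvd_mul_left M 9, fun h => ?_, ellFree_of_nine_dvd (dvd_mul_right 9 M)⟩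
    rcases hq.out.dvd_mul.mp h with h | h
    · subst h2; omega
    · exact hqM h
  · have : NeZero (4 * M) := ⟨by omega⟩
    refine ⟨4 * M, by omega, dvd_mul_left M 4, fun h => ?_, ellFree_of_four_dvd (dvd_mul_right 4 M)⟩
    rcases hq.out.dvd_mul.mp h with h | h
    · exact h2 ((Nat.prime_dvd_prime_iff_eq hq.out Nat.prime_two).mp
        (hq.out.dvd_of_dvd_pow (show q ∣ 2 ^ 2 from h)))
    · exact hqM h

variable {A : ValuationSubring QBar}

/-- An inclusion of levels keeps the divisibility of divisors. -/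
theorem dvd_ord_inclF {N N' : ℕ} [NeZero N] [NeZero N'] (h : N ∣ N')
    [FF.IsFunctionField QBar (FB N)] [FF.IsFunctionField QBar (FB N')] {m : ℤ} {f : FB N}
    (hf : ∀ v : Place QBar (FB N), m ∣ v.ord f) (w : Place QBar (FB N')) :
    m ∣ w.ord (inclF h f) := by
  rw [w.ord_restrictAlong (inclF h) (FF.isIntegralAlong _)]
  exact (hf _).mul_left _

/-- The reductions at level `M'` are, up to a bounded power, `m`-th powers. -/
theorem exists_pow_red [CharP (Res A) q] [IsAlgClosed (Res A)] {M' : ℕ} [NeZero M']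
    [FF.IsFunctionField (Res A) (KM A M)] [FF.IsFunctionField (Res A) (KM A M')]
    (hA : A.LiesOverPrime q) (hMM' : M ∣ M') (hqM' : ¬ q ∣ M') {m : ℕ} [NeZero m]
    (hM : (M : Res A) ≠ 0) (z : Fin 2 → KM A M) (hz : ∀ s, z s ≠ 0)
    (hdiv : ∀ s (P : Place (Res A) (KM A M')), (m : ℤ) ∣ P.ord (inclK A hMM' (z s)))
    (hrel : ∀ s, ∃ (c : Res A) (w : KM A M), c ≠ 0 ∧ w ≠ 0 ∧
      z s * coeffAut M (frobRing A q) • z (1 - s) = algebraMap (Res A) (KM A M) c * w ^ m) :
    ∀ s, ∃ g : KM A M', g ≠ 0 ∧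
      inclK A hMM' (z s) ^ Nat.card (CurveTorsion.fixedSub
        (coeffAut M' (frobRing A q) ^ 2) : AddSubgroup (JZeroC (Res A) M')) = g ^ m := by
  have hM'A : (M' : Res A) ≠ 0 := EichlerShimura.natCast_ne_zero hq.out hqM' hA
  set Φ := coeffAut M' (frobRing A q)
  let zu : Fin 2 → divGrp (Res A) (KM A M') m := fun s =>
    ⟨Units.mk0 (inclK A hMM' (z s)) ((_root_.map_ne_zero _).mpr (hz s)), fun P => by
      rw [Units.val_mk0]; exact hdiv s P⟩
  let a : Fin 2 → JZeroC (Res A) M' := fun s =>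
    ((toTorsion (Additive.ofMul (zu s)) : Pic0.torsion (Res A) (KM A M') m) : Pic0 (Res A) (KM A M'))
  have hswap : ∀ s, Φ • a (1 - s) = - a s := by
    intro s
    obtain ⟨c, w, hc, hw, he⟩ := hrel s
    obtain ⟨d, hd⟩ := IsAlgClosed.exists_pow_nat_eq c (Nat.pos_of_ne_zero (NeZero.ne m))
    have h0 : toTorsion (Additive.ofMul (zu s * smulDiv Φ (zu (1 - s)))) = 0 := by
      refine toTorsion_eq_zero_of_eq_pow
        (g := algebraMap (Res A) (KM A M') d * inclK A hMM' w) ?_
      have e1 : Φ • inclK A hMM' (z (1 - s)) =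
          inclK A hMM' (coeffAut M (frobRing A q) • z (1 - s)) := Subtype.ext (by
        rw [coe_coeffAut_smul, coe_inclK, coe_inclK, coe_coeffAut_smul])
      show inclK A hMM' (z s) * Φ • inclK A hMM' (z (1 - s)) = _
      rw [e1, ← map_mul, he, map_mul, AlgHom.commutes, ← hd, map_pow, map_pow, mul_pow]
    refine eq_neg_of_add_eq_zero_right ?_
    show ((toTorsion (Additive.ofMul (zu s)) : Pic0.torsion (Res A) (KM A M') m) :
        Pic0 (Res A) (KM A M')) + Φ • _ = 0
    rw [smul_toTorsion, ← add_toTorsion, h0, AddSubgroup.coe_zero]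
  have hfix : ∀ s, (Φ ^ 2) • a s = a s := by
    intro s
    have h1 := hswap (1 - s)
    rw [show 1 - (1 - s) = s by fin_cases s <;> rfl] at h1
    rw [pow_two, mul_smul, h1, smul_neg, hswap s, neg_neg]
  have hfin : Finite (CurveTorsion.fixedSub (Φ ^ 2) : AddSubgroup (JZeroC (Res A) M')) :=
    (Mazur.Eisenstein.finite_fixedSub_sq (q := q) M' A hA hM'A).to_subtype
  intro s
  have h := congrArg Subtype.val (card_nsmul_eq_zero'
    (x := (⟨a s, hfix s⟩ : (CurveTorsion.fixedSub (Φ ^ 2) : AddSubgroup (JZeroC (Res A) M')))))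
  rw [AddSubgroup.coe_nsmul, AddSubgroup.coe_zero] at h
  have h' : toTorsion (Additive.ofMul (zu s ^ Nat.card (CurveTorsion.fixedSub (Φ ^ 2) :
      AddSubgroup (JZeroC (Res A) M')))) = 0 :=
    Subtype.ext ((nsmul_toTorsion (zu s) _).trans h)
  obtain ⟨g, hg, he⟩ := exists_eq_pow_of_toTorsion_eq_zero h'
  exact ⟨g, hg, he⟩

/-- A function whose two reductions have an `e`-th power which is an `m`-th power: the square of
Frobenius is `q ^ 2` on its Kummer class to the exponent `e`. -/
theorem exists_sq_pow [CharP (Res A) q] [IsAlgClosed (Res A)]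
    [FF.IsFunctionField (Res A) (KM A M)] (hA : A.LiesOverPrime q)
    {σ : GQ} (hσ : A.IsFrobeniusAt σ q) {m e : ℕ} [NeZero m] (hqm : ¬ q ∣ m)
    (hM : (M : Res A) ≠ 0) (F : loc2 A (iota2 M q hqM))
    (hdiv : ∀ v : Place QBar (FB (q * M)), (m : ℤ) ∣ v.ord (F : FB (q * M)))
    (hne : ∀ s, red2 A (iota2 M q hqM) F s ≠ 0) (g : Fin 2 → KM A M) (hg0 : ∀ s, g s ≠ 0)
    (hg : ∀ s, redK hM F s ^ e = g s ^ m) :
    ∃ u : FB (q * M),
      (galF (q * M) σ (galF (q * M) σ (F : FB (q * M))) *
        ((F : FB (q * M)) ^ q ^ 2)⁻¹) ^ e = u ^ m := by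
  obtain ⟨G, hG⟩ := red2_surjective (A := A) M q hqM hM (inv_mem (g 0).2) (inv_mem (g 1).2)
  have hone : ∀ s, red2 A (iota2 M q hqM) (F ^ e * G ^ m) s = 1 := by
    intro s
    have hs : red2 A (iota2 M q hqM) G s = ((g s : LaurentSeries (Res A)))⁻¹ := by
      rw [hG]; fin_cases s <;> rfl
    have h2 := congrArg (fun u : KM A M => (u : LaurentSeries (Res A))) (hg s)
    simp only [SubmonoidClass.coe_pow, coe_redK] at h2
    rw [map_mul, map_pow, map_pow, Pi.mul_apply, Pi.pow_apply, Pi.pow_apply, hs, h2,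
      inv_pow, mul_inv_cancel₀]
    exact pow_ne_zero _ fun h => hg0 s (Subtype.ext h)
  have hF0 : (F : FB (q * M)) ≠ 0 := fun h => hne 0 (by
    rw [show F = 0 from Subtype.ext h, map_zero]; rfl)
  have hG0 : (G : FB (q * M)) ≠ 0 := fun h => by
    have h2 := hone 0
    rw [map_mul, map_pow, map_pow, show G = 0 from Subtype.ext h, map_zero,
      zero_pow (NeZero.ne m), mul_zero, Pi.zero_apply] at h2
    exact zero_ne_one h2
  let f : divGrp QBar (FB (q * M)) m :=
    ⟨Units.mk0 ((F : FB (q * M)) ^ e * (G : FB (q * M)) ^ m)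
      (mul_ne_zero (pow_ne_zero _ hF0) (pow_ne_zero _ hG0)), fun v => by
      rw [Units.val_mk0, v.ord_mul (pow_ne_zero _ hF0) (pow_ne_zero _ hG0), FF.ord_pow, FF.ord_pow]
      exact dvd_add ((hdiv v).mul_left _) (dvd_mul_right _ _)⟩
  have hk : HasKummer (Unipotent.setup hA hqM) (divQuot f) m 1 :=
    ⟨fun _ => one_ne_zero, F ^ e * G ^ m, fun v => by
      have h2 := DFunLike.congr_fun (JacTorsion.smul_divQuot f) v
      rw [Finsupp.smul_apply, smul_eq_mul, FF.div_apply] at h2
      exact Eq.trans (by push_cast; rfl) h2.symm, fun s => by rw [hone s, Pi.one_apply, map_one]⟩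
  have key := (Unipotent.setup hA hqM).frobenius_sq_principal hσ (NeZero.ne m) hqm hk
  have hX : σ • σ • (toTorsion (Additive.ofMul f) : JZero (q * M)) -
      (q ^ 2) • (toTorsion (Additive.ofMul f) : JZero (q * M)) = 0 :=
    (QuotientAddGroup.eq_zero_iff _).mpr (AddSubgroup.mem_addSubgroupOf.mpr key)
  set f' : divGrp QBar (FB (q * M)) m :=
    smulDiv (arithmeticGalois (modularFunctionFieldFull (q * M)) σ)
      (smulDiv (arithmeticGalois (modularFunctionFieldFull (q * M)) σ) f)
  have hP : toTorsion (Additive.ofMul (f' * (f ^ q ^ 2)⁻¹)) = 0 := by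
    refine Subtype.ext ?_
    rw [galois_smul_toTorsion, galois_smul_toTorsion] at hX
    rw [ofMul_mul, ofMul_inv, ofMul_pow, map_add, map_neg, map_nsmul, AddSubgroup.coe_add,
      AddSubgroup.coe_neg, AddSubgroup.coe_nsmul, AddSubgroup.coe_zero, ← sub_eq_add_neg]
    exact hX
  obtain ⟨u, -, hu⟩ := exists_eq_pow_of_toTorsion_eq_zero hP
  set G₂ : FB (q * M) := galF (q * M) σ (galF (q * M) σ (G : FB (q * M))) *
    ((G : FB (q * M)) ^ q ^ 2)⁻¹
  have hG₂ : G₂ ≠ 0 := mul_ne_zero ((_root_.map_ne_zero _).mpr ((_root_.map_ne_zero _).mpr hG0))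
    (inv_ne_zero (pow_ne_zero _ hG0))
  refine ⟨u * G₂⁻¹, ?_⟩
  push_cast at hu
  rw [coe_smulDiv_galois, coe_smulDiv_galois] at hu
  rw [mul_pow u, ← hu, inv_pow, eq_mul_inv_iff_mul_eq₀ (pow_ne_zero _ hG₂)]
  show _ = galF (q * M) σ (galF (q * M) σ ((F : FB (q * M)) ^ e * (G : FB (q * M)) ^ m)) *
    (((F : FB (q * M)) ^ e * (G : FB (q * M)) ^ m) ^ q ^ 2)⁻¹
  simp only [map_mul, map_pow, G₂]
  ring

/-- The class of an element whose image under a finite morphism has an `e`-th power which is an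
`m`-th power is killed by `e` times the degree. -/
theorem nsmul_toTorsion_eq_zero {K F E : Type*} [Field K] [IsAlgClosed K] [Field F] [Field E]
    [Algebra K F] [Algebra K E] [FF.IsFunctionField K F] [FF.IsFunctionField K E]
    (j : F →ₐ[K] E) {m : ℕ} [NeZero m] (f : divGrp K F m) {e : ℕ} {u : E}
    (h : j ((f : Fˣ) : F) ^ e = u ^ m) :
    (e * finrankAlong K j) • (toTorsion (Additive.ofMul f) : Pic0 K F) = 0 := by
  letI := algebraAlong j
  have hn : ((f : Fˣ) : F) ^ (e * finrankAlong K j) = Algebra.norm F u ^ m := by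
    rw [pow_mul, ← norm_along_apply j (((f : Fˣ) : F) ^ e), map_pow j, h, map_pow]
  rw [← nsmul_toTorsion, toTorsion_eq_zero_of_eq_pow (f := f ^ (e * finrankAlong K j))
    (g := Algebra.norm F u) (by push_cast; exact hn), AddSubgroup.coe_zero]

variable (hA : A.LiesOverPrime q)

include hA in
/-- **The square of Frobenius, with a bounded exponent.** -/
theorem exists_exponent {σ : GQ} (hσ : A.IsFrobeniusAt σ q) :
    ∃ C : ℕ, C ≠ 0 ∧ ∀ (m : ℕ) [NeZero m], ¬ q ∣ m →
      ∀ (F : loc2 A (iota2 M q hqM)) (fD : divGrp QBar (FB (q * M)) m),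
        ((fD : (FB (q * M))ˣ) : FB (q * M)) = (F : FB (q * M)) →
        InertiaFixed A ((F : FB (q * M)) : LSer) →
        (∀ s, red2 A (iota2 M q hqM) F s ≠ 0) →
        (∃ g : FB M, g ≠ 0 ∧ NewformLocal.Toric.normUp q M (F : FB (q * M)) = g ^ m) →
        (∃ g : FB M, g ≠ 0 ∧
          NewformLocal.Toric.normUp q M (wEquiv q M hqM (F : FB (q * M))) = g ^ m) →
        C • (σ • σ • (toTorsion (Additive.ofMul fD) : JZero (q * M)) -
          (q ^ 2) • (toTorsion (Additive.ofMul fD) : JZero (q * M))) = 0 := by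
  have := Arith.residueField_charP hA hq.out
  have := Arith.residueField_isAlgClosed A
  obtain ⟨M', hM'pos, hMM', hqM', hell⟩ := exists_level hqM
  have : NeZero M' := ⟨hM'pos.ne'⟩
  have hMA : (M : Res A) ≠ 0 := EichlerShimura.natCast_ne_zero hq.out hqM hA
  have hM'A : (M' : Res A) ≠ 0 := EichlerShimura.natCast_ne_zero hq.out hqM' hA
  haveI : FF.IsFunctionField (Res A) (KM A M) := RedTorsion.isFunctionField_full rfl hMA
  haveI : FF.IsFunctionField (Res A) (KM A M') := RedTorsion.isFunctionField_full rfl hM'A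
  haveI : Finite (CurveTorsion.fixedSub (coeffAut M' (frobRing A q) ^ 2) :
      AddSubgroup (JZeroC (Res A) M')) :=
    (Mazur.Eisenstein.finite_fixedSub_sq (q := q) M' A hA hM'A).to_subtype
  set e := Nat.card (CurveTorsion.fixedSub (coeffAut M' (frobRing A q) ^ 2) :
    AddSubgroup (JZeroC (Res A) M'))
  have hqd : q * M ∣ q * M' := mul_dvd_mul_left q hMM'
  set j : FB (q * M) →ₐ[QBar] FB (q * M') := inclF hqd
  set d := finrankAlong QBar j
  refine ⟨e * d, mul_ne_zero Nat.card_pos.ne' (FF.finrankAlong_pos j).ne', ?_⟩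
  intro m _ hqm F fD hfD hfix hne h0 h1
  set F' : loc2 A (iota2 M' q hqM') := inclLoc (hqM' := hqM') hMM' F
  have hdivF : ∀ v : Place QBar (FB (q * M')), (m : ℤ) ∣ v.ord (F' : FB (q * M')) :=
    dvd_ord_inclF hqd fun v => by rw [← hfD]; exact fD.2 v
  have hfix' : InertiaFixed A ((F' : FB (q * M')) : LSer) := by
    show InertiaFixed A ((inclF hqd (F : FB (q * M)) : FB (q * M')) : LSer)
    rw [coe_inclF]; exact hfix
  have hne' : ∀ s, red2 A (iota2 M' q hqM') F' s ≠ 0 := fun s => by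
    rw [red2_inclLoc]; exact hne s
  have hred : ∀ s, redK hM'A F' s = inclK A hMM' (redK hMA F s) := fun s => Subtype.ext (by
    rw [coe_redK, coe_inclK, coe_redK, red2_inclLoc])
  have hzne : ∀ s, redK hMA F s ≠ 0 := fun s h => hne s (congrArg Subtype.val h)
  have hpow := exists_pow_red hA hMM' hqM' hMA (m := m) (fun s => redK hMA F s) hzne
    (fun s P => by
      rw [← hred]
      exact dvd_ord_red_of_ellFree hA hell (Nat.pos_of_ne_zero (NeZero.ne m)) hfix' hdivF hne'
        hM'A s P)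
    (exists_relation hA hMA F hne h0 h1)
  choose g hg0 hg using hpow
  obtain ⟨u, hu⟩ := exists_sq_pow hA hσ hqm hM'A F' hdivF hne' g hg0
    (fun s => by rw [hred]; exact hg s)
  set ΔD : divGrp QBar (FB (q * M)) m :=
    smulDiv (arithmeticGalois (modularFunctionFieldFull (q * M)) σ)
      (smulDiv (arithmeticGalois (modularFunctionFieldFull (q * M)) σ) fD) * (fD ^ q ^ 2)⁻¹
  have hz := nsmul_toTorsion_eq_zero j ΔD (e := e) (u := u) (by
    rw [← hu]
    refine congrArg (· ^ e) ?_
    simp only [ΔD]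
    push_cast
    rw [coe_smulDiv_galois, coe_smulDiv_galois, hfD, map_mul, map_inv₀, map_pow]
    show inclF hqd _ * _ = _
    rw [← galF_inclF hqd σ, ← galF_inclF hqd σ]
    rfl)
  rw [galois_smul_toTorsion, galois_smul_toTorsion, sub_eq_add_neg, ← nsmul_toTorsion,
    ← AddSubgroup.coe_neg, ← map_neg, ← ofMul_inv, ← add_toTorsion]
  exact hz

end Fermat.Agent.Semistable.Toric

end
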