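import Fermat.Agent.Semistable.Toric.Balanced
import Fermat.Agent.Semistable.Toric.Principal
import Fermat.Agent.NewformLocal.Toric.Homs
import Fermat.Agent.NewformLocal.Toric.Transfer
import Fermat.Agent.GaloisReps.Models

/-!
# `ToricSquareAt` for the models of `J₀(N)`

The bounded exponent of the torsion statement disappears on the lattice.
-/

set_option autoImplicit false
set_option synthInstance.maxHeartbeats 400000
set_option maxHeartbeats 1000000
set_option linter.unusedSectionVars false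

noncomputable section

open ModularCurve AlgebraicCurve CongruenceSubgroup
open Fermat.Agent.GaloisReps (AbsGal FullHecke JTors TorsionIso galTors heckeTors matIn toFull)
open Fermat.Agent.NewformLocal (levelPrimes toricOp)
open Fermat.Agent.NewformLocal.Toric (IsDegeneracySystems monodromy)

namespace Fermat.Agent.Semistable.Toric

variable {q R : ℕ} [hq : Fact q.Prime] [NeZero R]

/-- The exponent, for classes with monodromy killed by both degeneracy operators. -/
theorem exists_exponent_monodromy (hqR : ¬ q ∣ R) {A : ValuationSubring (AlgebraicClosure ℚ)}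
    (hA : A.LiesOverPrime q) {σ : AbsGal} (hσ : A.IsFrobeniusAt σ q) {L : ℕ} [NeZero L]
    (hL : L = q * R) :
    ∃ C : ℕ, C ≠ 0 ∧ ∀ (m : ℕ) [NeZero m], ¬ q ∣ m → ∀ (l : ℕ) (hl : l.Prime), ¬ l ∣ L →
      ∀ x y : Pic0.torsion (AlgebraicClosure ℚ) (modularFunctionFieldBar L) m,
        (∀ τ ∈ A.inertiaSubgroupIn ℚ, τ • (x : JZero L) = x) →
        (y : JZero L) = heckeOperatorBar L ⟨l, hl⟩ (x : JZero L) - (l + 1) • (x : JZero L) →
        (∃ Cs Ss Ws, IsDegeneracySystems q R L Cs Ss Ws ∧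
          Cs.apply (JacTorsion.torsionEquiv L m y).1 = 0 ∧
          Ss.apply (JacTorsion.torsionEquiv L m y).1 = 0) →
        C • (σ • σ • (y : JZero L) - (q ^ 2) • (y : JZero L)) = 0 := by
  subst hL
  obtain ⟨C, hC, key⟩ := exists_exponent (M := R) (hqM := hqR) hA hσ
  refine ⟨C, hC, fun m _ hqm l hl hlL x y hfix hy hdeg => ?_⟩
  obtain ⟨Cs, Ss, Ws, hS, hc, hs⟩ := hdeg
  obtain ⟨F, fD, hfD, hFfix, hne, htor⟩ := exists_balanced (hqM := hqR) hA
    (x := (x : JZero (q * R))) (m := m)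
    (by rw [← natCast_zsmul]; exact Pic0.mem_torsion.mp x.2) hfix hl hlL
  rw [← hy] at htor
  have hyeq : JacTorsion.toTorsion (Additive.ofMul fD) = y := Subtype.ext htor
  have hmono : monodromy fD = (JacTorsion.torsionEquiv (q * R) m y).1 :=
    congrArg (fun z => (JacTorsion.torsionEquiv (q * R) m z).1) hyeq
  obtain ⟨h0, h1⟩ := NewformLocal.Toric.exists_norms_eq_pow hqR hS fD
    (by rw [hmono]; exact hc) (by rw [hmono]; exact hs)
  have h := key m hqm F fD hfD hFfix hne (by rw [← hfD]; exact h0) (by rw [← hfD]; exact h1)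
  rwa [htor] at h

variable {N p : ℕ} [NeZero N] [Fact p.Prime]

/-- **`ToricSquareAt` for the model.** -/
theorem toricSquareAt_modelOfCongruence (hES : GaloisReps.CongruenceProperty N p) (hqp : q ≠ p)
    (hq2 : ¬ q ^ 2 ∣ N) :
    NewformLocal.ToricSquareAt (GaloisReps.modelOfCongruence hES) q := by
  intro R _ hR hRq t ht ℓ hℓ hℓN A hA σ hσ v hv
  subst hRq
  have hqR : ¬ q ∣ R := fun h => hq2 (by rw [pow_two]; exact Nat.mul_dvd_mul_right h q)
  have hraise : LevelRaising.RaiseData q R := ⟨hq.out, hqR⟩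
  obtain ⟨C, hC, key⟩ := exists_exponent_monodromy hqR hA hσ (L := R * q) (mul_comm R q)
  set E := GaloisReps.torsionIso (R * q) p (GaloisReps.conjProperty (R * q))
  have hG : GaloisReps.TorsionGalois (R * q) p := GaloisReps.torsionGalois (R * q) p hES
  set Lh := GaloisReps.latticeMat (R * q)
  show (E.gal σ * E.gal σ * matIn Lh ℤ_[p] (toricOp t hℓ) -
    (q : ℤ_[p]) ^ 2 • matIn Lh ℤ_[p] (toricOp t hℓ)).mulVec v = 0
  change ∀ τ ∈ A.inertiaSubgroupIn ℚ, (E.gal τ).mulVec v = v at hv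
  set X := (E.gal σ * E.gal σ * matIn Lh ℤ_[p] (toricOp t hℓ) -
    (q : ℤ_[p]) ^ 2 • matIn Lh ℤ_[p] (toricOp t hℓ)).mulVec v with hX
  suffices hkill : ∀ n i, PadicInt.toZModPow n ((C : ℤ_[p]) * X i) = 0 by
    funext i
    have h0 : (C : ℤ_[p]) * X i = 0 := PadicInt.ext_of_toZModPow.mp fun n => by
      rw [hkill n i, map_zero]
    exact (mul_eq_zero.mp h0).resolve_left (Nat.cast_ne_zero.mpr hC)
  intro n i
  set T : FullHecke (R * q) := HeckeDuality.heckeOp (R * q) 2 ℓ hℓ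
  set π : ℤ_[p] →+* ZMod (p ^ n) := PadicInt.toZModPow n
  have hmap : ∀ (a : FullHecke (R * q)), (matIn Lh ℤ_[p] a).map π = matIn Lh (ZMod (p ^ n)) a :=
    fun a => by rw [GaloisReps.matIn_apply, GaloisReps.matIn_apply,
      GaloisReps.map_intCast_toZModPow]
  set w : Fin (2 * Gamma0.genus (R * q)) → ZMod (p ^ n) := π ∘ v
  have hmv : ∀ (P : Matrix (Fin (2 * Gamma0.genus (R * q))) (Fin (2 * Gamma0.genus (R * q))) ℤ_[p])
      (u : Fin (2 * Gamma0.genus (R * q)) → ℤ_[p]),
      π ∘ P.mulVec u = (P.map π).mulVec (π ∘ u) := fun P u =>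
    funext fun i => RingHom.map_mulVec π P u i
  -- the point
  set x := (E.psi n).symm ((matIn Lh (ZMod (p ^ n)) (toFull _ t)).mulVec w) with hxdef
  have hx : E.psi n x = (matIn Lh (ZMod (p ^ n)) (toFull _ t)).mulVec w :=
    (E.psi n).apply_symm_apply _
  have hxfix : ∀ τ ∈ A.inertiaSubgroupIn ℚ, τ • (x : JZero (R * q)) = x := by
    intro τ hτ
    refine congrArg Subtype.val (show galTors n τ x = x from (E.psi n).injective ?_)
    rw [← E.galLvl_mulVec, hx, ← E.map_gal, ← hmap, ← hmv, ← hmv, Matrix.mulVec_mulVec,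
      (E.gal_commute hG τ (toFull _ t)).eq, ← Matrix.mulVec_mulVec, hv τ hτ]
  set y : JTors (R * q) p n := heckeTors n ⟨ℓ, hℓ⟩ x - (ℓ + 1) • x with hydef
  have hy : E.psi n y = (matIn Lh (ZMod (p ^ n)) (toricOp t hℓ)).mulVec w := by
    rw [hydef, map_sub, map_nsmul, ← E.mat_mulVec, E.mat_heckeTors, ← GaloisReps.latticeMat_heckeOp,
      hx, ← GaloisReps.matIn_apply, Matrix.mulVec_mulVec, ← Matrix.smul_mulVec,
      ← Matrix.sub_mulVec]
    congr 1
    rw [toricOp, mul_comm (toFull _ t), map_mul, map_sub, map_natCast, sub_mul, nsmul_eq_mul]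
  have hdeg : ∃ Cs Ss Ws, IsDegeneracySystems q R (R * q) Cs Ss Ws ∧
      Cs.apply (JacTorsion.torsionEquiv (R * q) (p ^ n) y).1 = 0 ∧
      Ss.apply (JacTorsion.torsionEquiv (R * q) (p ^ n) y).1 = 0 := by
    refine ⟨hraise.corSys, hraise.starSys, hraise.wSys,
      ⟨fun _ => rfl, fun _ => rfl, rfl, fun φ => hraise.cor_w φ⟩, ?_⟩
    have hc : GaloisReps.coord (R * q) (ZMod (p ^ n)) (E.e n y).1 =
        ((GaloisReps.latticeMat (R * q) (toFull _ t)).map
          (Int.castRingHom (ZMod (p ^ n)))).mulVec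
          ((matIn Lh (ZMod (p ^ n)) (T - ((ℓ + 1 : ℕ) : FullHecke (R * q)))).mulVec w) := by
      rw [← E.psi_apply, hy, toricOp, map_mul, ← Matrix.mulVec_mulVec]
      rfl
    obtain ⟨h1, h2⟩ := NewformLocal.Toric.degeneracy_eq_zero hraise t ht (E.e n y).2 _ hc
    have e : GaloisReps.atkinHom (R * q) (ZMod (p ^ n)) (E.e n y).1 =
        (JacTorsion.torsionEquiv (R * q) (p ^ n) y).1 := GaloisReps.atkinHom_atkinHom _
    rw [e] at h1 h2
    exact ⟨h1, h2⟩
  have hqm : ¬ q ∣ p ^ n := fun hd =>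
    hqp ((Nat.prime_dvd_prime_iff_eq hq.out Fact.out).1 (hq.out.dvd_of_dvd_pow hd))
  have : NeZero (p ^ n) := ⟨pow_ne_zero _ (Fact.out : p.Prime).ne_zero⟩
  have hrel := key (p ^ n) hqm ℓ hℓ (fun h => hℓN (dvd_mul_of_dvd_left h p)) x y hxfix
    (by rw [hydef]; rfl) hdeg
  have hrel' : C • (galTors n σ (galTors n σ y) - (q ^ 2) • y) = 0 := Subtype.ext hrel
  have h3 := congrFun (congrArg (E.psi n) hrel') i
  rw [map_nsmul, map_sub, map_nsmul, ← E.galLvl_mulVec, ← E.galLvl_mulVec, hy, map_zero, Pi.zero_apply] at h3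
  rw [map_mul, map_natCast]
  refine Eq.trans ?_ h3
  rw [Pi.smul_apply, nsmul_eq_mul]
  congr 1
  refine (congrFun (hmv _ v) i).trans (congrFun ?_ i)
  rw [Matrix.map_sub _ (map_sub π), Matrix.sub_mulVec, Matrix.map_mul, Matrix.map_mul, E.map_gal,
    hmap, ← Matrix.mulVec_mulVec, ← Matrix.mulVec_mulVec]
  congr 1
  rw [← hmap, ← Matrix.smul_mulVec]
  congr 1
  ext a b
  simp

/-- `ToricSquareAt` for the models, unconditionally. -/
theorem toricSquareAt (hqp : q ≠ p) (hq2 : ¬ q ^ 2 ∣ N) :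
    NewformLocal.ToricSquareAt (GaloisReps.heckeGaloisModel N p) q :=
  toricSquareAt_modelOfCongruence _ hqp hq2

end Fermat.Agent.Semistable.Toric

end
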