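import Fermat.Agent.NewformLocal.Toric.NormRed
import Fermat.Agent.RT.LowerQ.Eigen
import Fermat.Agent.EichlerShimura.Equivariance

/-!
# The reductions of a function whose norm to level `M` is a power

If the norm of `x` is an `m`-th power then `r₀ · Frob r₁` is a constant times an `m`-th power,
`r₀` and `r₁` the reductions of `x` and `w x`.
-/

set_option autoImplicit false
set_option synthInstance.maxHeartbeats 400000
set_option maxHeartbeats 1000000
set_option linter.unusedSectionVars false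

noncomputable section

namespace Fermat.Agent.Semistable.Toric

open AlgebraicCurve ModularCurve
open Fermat.Agent.Semistable Fermat.Agent.RT.Mazur Fermat.Agent.RT.MazurP
open EichlerShimura (coeffAut coe_coeffAut_smul frobRing)
open Arith (QBar GQ)

variable {A : ValuationSubring QBar} {q : ℕ} [hq : Fact q.Prime] [CharP (Res A) q]
  {M : ℕ} [NeZero M] [FF.IsFunctionField (Res A) (KM A M)] [IsAlgClosed (Res A)] {hqM : ¬ q ∣ M}

/-- **The reduced norm relation.** -/
theorem exists_relation (hA : A.LiesOverPrime q) (hM : (M : Res A) ≠ 0) {m : ℕ}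
    (F : loc2 A (iota2 M q hqM)) (hne : ∀ s, red2 A (iota2 M q hqM) F s ≠ 0)
    (h0 : ∃ g : FB M, g ≠ 0 ∧
      NewformLocal.Toric.normUp q M (F : FB (q * M)) = g ^ m)
    (h1 : ∃ g : FB M, g ≠ 0 ∧
      NewformLocal.Toric.normUp q M (wEquiv q M hqM (F : FB (q * M))) = g ^ m)
    (s : Fin 2) :
    ∃ (c : Res A) (w : KM A M), c ≠ 0 ∧ w ≠ 0 ∧
      redK hM F s * coeffAut M (frobRing A q) • redK hM F (1 - s) =
        algebraMap (Res A) (KM A M) c * w ^ m := by
  -- the function whose two expansions are those of `F`, the `s`-th first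
  obtain ⟨y, hy0, hy1, g, hg0, hg⟩ : ∃ y : FB (q * M),
      iota2 M q hqM 0 y = iota2 M q hqM s (F : FB (q * M)) ∧
      iota2 M q hqM 1 y = iota2 M q hqM (1 - s) (F : FB (q * M)) ∧
      ∃ g : FB M, g ≠ 0 ∧ NewformLocal.Toric.normUp q M y = g ^ m := by
    fin_cases s
    · exact ⟨F, rfl, rfl, h0⟩
    · refine ⟨wEquiv q M hqM (F : FB (q * M)), ?_, ?_, h1⟩
      · show iota2 M q hqM 0 _ = iota2 M q hqM 1 _
        rw [iota2_zero, iota2_one]
      · show iota2 M q hqM 1 _ = iota2 M q hqM 0 _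
        rw [iota2_zero, iota2_one, wEquiv_wEquiv]
  have hmem : ∀ t, iota2 M q hqM t (F : FB (q * M)) ∈ locS A := (mem_loc2 _).mp F.2
  have e0 : algebraMap QBar LSer 1 * (y : LSer) = iota2 M q hqM s (F : FB (q * M)) := by
    rw [map_one, one_mul, ← iota2_zero M q hqM, hy0]
  have e1 : algebraMap QBar LSer 1 * (wEquiv q M hqM y : LSer) =
      iota2 M q hqM (1 - s) (F : FB (q * M)) := by
    rw [map_one, one_mul, ← iota2_one M q hqM, hy1]
  have ha : algebraMap QBar LSer 1 * (y : LSer) ∈ locS A := e0 ▸ hmem s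
  have hb : algebraMap QBar LSer 1 * (wEquiv q M hqM y : LSer) ∈ locS A := e1 ▸ hmem (1 - s)
  have hra : redL A ⟨_, ha⟩ = red2 A (iota2 M q hqM) F s := by
    rw [red2_apply]; exact redL_congr _ _ e0
  have hrb : redL A ⟨_, hb⟩ = red2 A (iota2 M q hqM) F (1 - s) := by
    rw [red2_apply]; exact redL_congr _ _ e1
  obtain ⟨hN, hNr⟩ := NewformLocal.Toric.redL_normUp (q := q) (M := M) (hqM := hqM) hA ha hb
    (by rw [hra]; exact hne s) (by rw [hrb]; exact hne (1 - s))
  rw [hra, hrb] at hNr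
  set R : LaurentSeries (Res A) := red2 A (iota2 M q hqM) F s *
    coeffMap (frobenius (Res A) q) (red2 A (iota2 M q hqM) F (1 - s)) with hR
  have hR0 : R ≠ 0 := mul_ne_zero (hne s) ((_root_.map_ne_zero _).mpr (hne (1 - s)))
  have hN' : IsRed A (((g ^ m : FB M)) : LSer) R :=
    ⟨hR0, 1 * 1 ^ q, by simp, hg ▸ hN, (redL_congr _ hN (by rw [hg])).trans hNr⟩
  obtain ⟨w, hw⟩ := IsRed.exists_of_ne_zero hA hq.out (mem_fracS_of_mem (A := A) g)
    (fun h => hg0 (Subtype.ext h))
  have hwK : w ∈ KM A M := RT.LowerQ.mem_KM_of_isRed hM hw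
  have hgm : IsRed A (((g ^ m : FB M)) : LSer) (w ^ m) := by
    rw [SubmonoidClass.coe_pow]
    exact hw.pow m
  obtain ⟨c, hc, hcR⟩ := hgm.unique hN'
  refine ⟨c, ⟨w, hwK⟩, hc, fun h => hw.1 (congrArg Subtype.val h), Subtype.ext ?_⟩
  push_cast
  rw [coe_redK, coe_coeffAut_smul, coe_redK]
  exact (show R = _ from hcR)

end Fermat.Agent.Semistable.Toric

end
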